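/-
Program C (S55), package C6 (first inequality), leaf (INDEX) of `H50/FirstIneqSpec.lean`:

`sUnitIndexStatement : (∀ K p, H88.SUnitIndexStatement K p) → H50.SUnitIndexStatement`

i.e. the index of `p`-th powers and the `p`-torsion of the `S`-units of `N` (places above `S`)
and of `k`, from the `S`-unit theorem (B4) of the embedding model for `N` and for `k`.
Also: `finite_placesOver` (finitely many places of `N` above a finite set of places of `k`) and
the abstract `natCard_ker_powMonoidHom_GS` (the `p`-torsion of the `S`-units is `μ_p`).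
-/
import Mathlib
import Fermat.Agent.S55.H50.FirstIneqSpec
import Fermat.Agent.S55.H83.SUnitCard

set_option autoImplicit false

open NumberField

noncomputable section

namespace Fermat.Agent.S55.H59

open Fermat.Agent.S55.H8 Fermat.Agent.S55.H88 Fermat.Agent.S55.H50

universe u

attribute [local instance] Fermat.Agent.S55.H88.factOfPrimes

/-- A root of unity is a unit at every finite place. -/
theorem finLoc_mem_finU_of_pow_eq_one {K : Type u} [Field K] (v : FinPlace K) {p : ℕ} (hp : p ≠ 0)
    (x : Kˣ) (hx : x ^ p = 1) : finLoc K v x ∈ finU K v := by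
  show ‖(((finLoc K v x : finX K v) : v.field) : PadicAlgCl (v.1 : ℕ))‖ = 1
  have h1 : (((finLoc K v x : finX K v) : v.field) : PadicAlgCl (v.1 : ℕ)) = v.emb (x : K) := rfl
  rw [h1]
  have h2 : (v.emb (x : K)) ^ p = 1 := by
    rw [← map_pow, ← Units.val_pow_eq_pow_val, hx, Units.val_one, map_one]
  have h3 : ‖v.emb (x : K)‖ ^ p = 1 := by
    rw [← norm_pow, h2, norm_one]
  exact (pow_eq_one_iff_of_nonneg (norm_nonneg _) hp).mp h3

/-- The `p`-torsion of the `S`-units is `μ_p`: it has `p` elements when the field contains a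
primitive `p`-th root of unity. -/
theorem natCard_ker_powMonoidHom_GS {K : Type u} [Field K] (S : Set (FinPlace K)) {p : ℕ}
    (hp : p ≠ 0) {ζ : K} (hζ : IsPrimitiveRoot ζ p) :
    Nat.card (powMonoidHom p : ↥(GS (finU K) (finLoc K) S) →* ↥(GS (finU K) (finLoc K) S)).ker
      = p := by
  have : NeZero p := ⟨hp⟩
  have hmem : ∀ x : Kˣ, x ^ p = 1 → x ∈ GS (finU K) (finLoc K) S := fun x hx =>
    mem_GS.mpr fun v _ => finLoc_mem_finU_of_pow_eq_one v hp x hx
  have hcard : Nat.card (rootsOfUnity p K) = p := hζ.card_rootsOfUnity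
  have e : ↥((powMonoidHom p : ↥(GS (finU K) (finLoc K) S) →*
      ↥(GS (finU K) (finLoc K) S)).ker) ≃ ↥(rootsOfUnity p K) :=
    { toFun := fun x => ⟨((x : ↥(GS (finU K) (finLoc K) S)) : Kˣ), by
        rw [mem_rootsOfUnity]
        have h := x.2
        rw [MonoidHom.mem_ker, powMonoidHom_apply] at h
        have h' := congrArg (fun z : ↥(GS (finU K) (finLoc K) S) => (z : Kˣ)) h
        exact h'⟩
      invFun := fun y => ⟨⟨(y : Kˣ), hmem _ ((mem_rootsOfUnity p _).mp y.2)⟩, by
        rw [MonoidHom.mem_ker, powMonoidHom_apply]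
        apply Subtype.ext
        exact (mem_rootsOfUnity p _).mp y.2⟩
      left_inv := fun x => rfl
      right_inv := fun y => rfl }
  rw [Nat.card_congr e, hcard]

/-- There are finitely many finite places of `N` above a finite set of finite places of `k`. -/
theorem finite_placesOver (k N : Type u) [Field k] [Field N] [NumberField N] [Algebra k N]
    (S : Finset (FinPlace k)) : (placesOver k N S).Finite := by
  have : ∀ q : Nat.Primes, Finite (PlaceAbove (q : ℕ) N) := fun q => Quotient.finite _
  refine Set.Finite.subset (Set.Finite.biUnion S.finite_toSet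
    (fun v _ => Set.finite_range (fun x : PlaceAbove ((v.1 : Nat.Primes) : ℕ) N =>
      (⟨v.1, x⟩ : FinPlace N)))) ?_
  intro w hw
  rw [Set.mem_iUnion₂]
  exact ⟨finRestrict k N w, hw, ⟨w.2, rfl⟩⟩

/-- **Leaf (INDEX) of C6** from the `S`-unit theorem (B4) of the embedding model. -/
theorem sUnitIndexStatement
    (hB4 : ∀ (K : Type u) [Field K] [NumberField K] (p : ℕ),
      Fermat.Agent.S55.H88.SUnitIndexStatement K p) :
    Fermat.Agent.S55.H50.SUnitIndexStatement.{u} := by
  classical
  intro k N _ _ _ _ _ p hp ζ hζ S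
  have hp0 : p ≠ 0 := hp.ne_zero
  have hζN : IsPrimitiveRoot (algebraMap k N ζ) p :=
    hζ.map_of_injective (algebraMap k N).injective
  -- the finite set of places of `N` above `S`
  have hfin := finite_placesOver k N S
  have hcoe : ((hfin.toFinset : Finset (FinPlace N)) : Set (FinPlace N)) = placesOver k N S :=
    hfin.coe_toFinset
  have hcardT : hfin.toFinset.card = Nat.card (placesOver k N S) := by
    rw [Nat.card_coe_set_eq, Set.ncard_eq_toFinset_card _ hfin]
  refine ⟨?_, natCard_ker_powMonoidHom_GS _ hp0 hζN, ?_, natCard_ker_powMonoidHom_GS _ hp0 hζ⟩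
  · have h := hB4 N p hp ⟨_, hζN⟩ hfin.toFinset
    rw [hcoe, Fermat.Agent.S55.H83.relIndex_map_powMonoidHom, hcardT] at h
    exact h
  · have h := hB4 k p hp ⟨_, hζ⟩ S
    rw [Fermat.Agent.S55.H83.relIndex_map_powMonoidHom] at h
    exact h

end Fermat.Agent.S55.H59
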